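import Mathlib.FieldTheory.PrimitiveElement
import Mathlib.FieldTheory.Perfect
import Mathlib.RingTheory.Artinian.Module
import Mathlib.LinearAlgebra.Dimension.Constructions

/-!
# The characters of a reduced algebra

A reduced finite dimensional algebra over a perfect field has as many characters into an
algebraically closed field as its dimension.
-/

set_option autoImplicit false
set_option linter.unusedSectionVars false

noncomputable section

namespace FA.OrdinaryReduced

variable {F A L : Type*} [Field F] [PerfectField F] [CommRing A] [Algebra F A] [Module.Finite F A]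
  [IsReduced A] [Field L] [Algebra F L] [IsAlgClosed L]

theorem natCard_algHom :
    Finite (A →ₐ[F] L) ∧ Nat.card (A →ₐ[F] L) = Module.finrank F A := by
  classical
  have : IsArtinianRing A := IsArtinianRing.of_finite F A
  let : Fintype (MaximalSpectrum A) := Fintype.ofFinite _
  let := fun I : MaximalSpectrum A => Ideal.Quotient.field I.asIdeal
  have hfin : ∀ I : MaximalSpectrum A, Module.Finite F (A ⧸ I.asIdeal) := fun I =>
    Module.Finite.of_surjective (Ideal.Quotient.mkₐ F I.asIdeal).toLinearMap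
      Ideal.Quotient.mk_surjective
  have hcard : ∀ I : MaximalSpectrum A,
      Nat.card ((A ⧸ I.asIdeal) →ₐ[F] L) = Module.finrank F (A ⧸ I.asIdeal) := fun I =>
    AlgHom.natCard_of_splits F (A ⧸ I.asIdeal) L fun _ => IsAlgClosed.splits _
  have hfh : ∀ I : MaximalSpectrum A, Finite ((A ⧸ I.asIdeal) →ₐ[F] L) := fun I =>
    Finite.of_fintype _
  obtain ⟨Φ, hΦ⟩ : ∃ Φ : (Σ I : MaximalSpectrum A, (A ⧸ I.asIdeal) →ₐ[F] L) → (A →ₐ[F] L),
      ∀ x a, Φ x a = x.2 (Ideal.Quotient.mk x.1.asIdeal a) :=
    ⟨fun x => x.2.comp (Ideal.Quotient.mkₐ F x.1.asIdeal), fun _ _ => rfl⟩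
  have hker : ∀ x, RingHom.ker (Φ x).toRingHom = x.1.asIdeal := fun x => by
    ext a
    rw [RingHom.mem_ker, show (Φ x).toRingHom a = Φ x a from rfl, hΦ,
      map_eq_zero_iff x.2 (fun _ _ h => x.2.toRingHom.injective h), Ideal.Quotient.eq_zero_iff_mem]
  have hbij : Function.Bijective Φ := by
    refine ⟨?_, fun ψ => ?_⟩
    · rintro ⟨I, a⟩ ⟨J, b⟩ e
      have hIJ : I = J := MaximalSpectrum.ext ((hker ⟨I, a⟩).symm.trans (e ▸ hker ⟨J, b⟩))
      subst hIJ
      refine congrArg _ (AlgHom.ext fun z => ?_)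
      obtain ⟨z, rfl⟩ := Ideal.Quotient.mk_surjective z
      have h := congrArg (fun f : A →ₐ[F] L => f z) e
      simpa only [hΦ] using h
    · have : (RingHom.ker ψ.toRingHom).IsPrime := RingHom.ker_isPrime _
      have hI : (RingHom.ker ψ.toRingHom).IsMaximal := IsArtinianRing.isMaximal_of_isPrime _
      refine ⟨⟨⟨_, hI⟩, Ideal.Quotient.liftₐ _ ψ fun a ha => ha⟩, AlgHom.ext fun a => ?_⟩
      rw [hΦ]
      rfl
  refine ⟨Finite.of_surjective Φ hbij.2, ?_⟩
  rw [← Nat.card_eq_of_bijective Φ hbij, Nat.card_sigma, Finset.sum_congr rfl fun I _ => hcard I,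
    ← Module.finrank_pi_fintype F]
  exact (((IsArtinianRing.equivPi A).toLinearEquiv.restrictScalars F).finrank_eq).symm

end FA.OrdinaryReduced

end
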