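import Fermat.Agent.OrdinaryReduced.Reduced
import Fermat.Agent.OrdinaryReduced.AlgHomCount

/-!
# The number of systems in a weight

Outside the class `0` the algebra of weight `m ≥ 3` is dual to the ordinary part, so it has as many
characters as the rank of the algebra over `Λ`.
-/

set_option autoImplicit false
set_option linter.unusedSectionVars false

noncomputable section

open PowerSeries

namespace FA.OrdinaryReduced

open FA.PadicForms FA.OrdinaryProj FA.LambdaForms FA.LambdaHecke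

variable {p : ℕ} [Fact p.Prime] {hp2 : p ≠ 2} {c : ZMod (p - 1)} {m : ℕ}

local notation "Λ" => PowerSeries ℤ_[p]

theorem fibreAlg_commute {a b : Module.End ℚ_[p] ↥(ordPart (natWeight p m))}
    (ha : a ∈ fibreAlg p m) (hb : b ∈ fibreAlg p m) : Commute a b :=
  (Algebra.commute_of_mem_adjoin_of_forall_mem_commute ha fun _ hx =>
    (Algebra.commute_of_mem_adjoin_of_forall_mem_commute hb fun _ hy =>
      isFibreGen_commute hx hy).symm).symm

/-- The map to the algebra of weight `m`. -/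
theorem exists_fibreHom (h5 : 5 ≤ p) (hm : 3 ≤ m) (hmc : (m : ZMod (p - 1)) = c) :
    ∃ Φ : ↥(heckeAlg hp2 c) →+* ↥(fibreAlg p m),
      ∀ h : ↥(heckeAlg hp2 c), IsFibre h5 hmc (h : Module.End Λ ↥(lamOrd hp2 c))
        (Φ h : Module.End ℚ_[p] ↥(ordPart (natWeight p m))) := by
  choose f hf hfh using fun h : ↥(heckeAlg hp2 c) => exists_fibre h5 hm hmc h.2
  refine ⟨{ toFun := fun h => ⟨f h, hf h⟩, map_one' := ?_, map_mul' := ?_, map_zero' := ?_,
            map_add' := ?_ }, hfh⟩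
  · exact Subtype.ext ((hfh 1).unique fun F => rfl)
  · exact fun g h => Subtype.ext ((hfh (g * h)).unique ((hfh g).mul (hfh h)))
  · exact Subtype.ext ((hfh 0).unique fun F => Subtype.ext (PowerSeries.ext fun n => by
      simp [coeff_spOrd]))
  · exact fun g h => Subtype.ext ((hfh (g + h)).unique ((hfh g).add (hfh h)))

variable {h5 : 5 ≤ p} {hmc : (m : ZMod (p - 1)) = c} {Φ : ↥(heckeAlg hp2 c) →+* ↥(fibreAlg p m)}

theorem coeff_one_tOf (hc0 : c ≠ 0)
    (hΦ : ∀ h : ↥(heckeAlg hp2 c), IsFibre h5 hmc (h : Module.End Λ ↥(lamOrd hp2 c))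
      (Φ h : Module.End ℚ_[p] ↥(ordPart (natWeight p m))))
    (n : ℕ) (y : ↥(ordPart (natWeight p m))) :
    coeff 1 (((Φ (tOf h5 hc0 n) : Module.End ℚ_[p] ↥(ordPart (natWeight p m))) y :
      ↥(ordPart (natWeight p m))) : PowerSeries ℚ_[p]) = coeff n (y : PowerSeries ℚ_[p]) := by
  obtain ⟨d, G, rfl⟩ := exists_spOrd (hp2 := hp2) h5 hmc y
  have h := LinearMap.congr_fun (pairing_tOf (hp2 := hp2) (h5 := h5) (hc0 := hc0) n) G
  rw [pairing_apply, coefL_apply] at h
  rw [map_smul, hΦ, Submodule.coe_smul, Submodule.coe_smul, PowerSeries.coeff_smul,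
    PowerSeries.coeff_smul, coeff_spOrd, coeff_spOrd, h]

theorem adjoin_range_eq (hm : 3 ≤ m)
    (hΦ : ∀ h : ↥(heckeAlg hp2 c), IsFibre h5 hmc (h : Module.End Λ ↥(lamOrd hp2 c))
      (Φ h : Module.End ℚ_[p] ↥(ordPart (natWeight p m))))
    {a : Module.End ℚ_[p] ↥(ordPart (natWeight p m))} (ha : IsFibreGen p m a) :
    ∃ h : ↥(heckeAlg hp2 c), (Φ h : Module.End ℚ_[p] ↥(ordPart (natWeight p m))) = a := by
  rcases ha with ha | ⟨l, hl, hlp, ha⟩
  · obtain ⟨U, hU, hUe⟩ := exists_uGen (hp2 := hp2) (c := c) h5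
    refine ⟨⟨U, hU⟩, (hΦ ⟨U, hU⟩).unique fun F => Subtype.ext (PowerSeries.ext fun n => ?_)⟩
    rw [ha, coeff_uSer, coeff_spOrd, coeff_spOrd, hUe, coeff_uSer]
  · obtain ⟨T, hT, hTe⟩ := exists_tGen (hp2 := hp2) (c := c) h5 hl hlp
    refine ⟨⟨T, hT⟩, (hΦ ⟨T, hT⟩).unique fun F => Subtype.ext (PowerSeries.ext fun n => ?_)⟩
    rw [ha, coeff_tSer, coeff_spOrd, coeff_spOrd, coeff_spOrd, hTe, coeff_tSer, map_add,
      apply_ite (evalLam hp2 (m : ℤ_[p])), map_zero, map_mul, evalLam_thetaLam h5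
        (fun e => hlp ((Nat.prime_dvd_prime_iff_eq Fact.out hl).1 e).symm) (by omega) hmc,
      PadicInt.coe_add]
    split_ifs <;> simp

variable (K : Type*) [Field K] [Algebra ℚ_[p] K] [IsAlgClosed K]

/-- The systems of weight `m`. -/
abbrev Systems (hp2 : p ≠ 2) (c : ZMod (p - 1)) (m : ℕ) : Type _ :=
  {lam : ↥(heckeAlg hp2 c) →+* K // ∀ a, lam (algebraMap Λ ↥(heckeAlg hp2 c) a) =
    algebraMap ℚ_[p] K ((evalLam hp2 (m : ℤ_[p]) a : ℤ_[p]) : ℚ_[p])}

instance commRingFibre : CommRing ↥(fibreAlg p m) :=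
  { @Subalgebra.toRing ℚ_[p] (Module.End ℚ_[p] ↥(ordPart (natWeight p m))) _
      Module.End.instRing _ (fibreAlg p m) with
    mul_comm := fun a b => Subtype.ext (fibreAlg_commute a.2 b.2).eq }

theorem finite_fibreAlg (h5 : 5 ≤ p) (hm : 3 ≤ m) : Module.Finite ℚ_[p] ↥(fibreAlg p m) :=
  have := finite_ordPart (k := m) h5 hm
  Module.Finite.of_injective (fibreAlg p m).val.toLinearMap Subtype.val_injective

theorem isReduced_fibreAlg (h5 : 5 ≤ p) (hm : 3 ≤ m) : IsReduced ↥(fibreAlg p m) :=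
  ⟨fun a ⟨j, hj⟩ => Subtype.ext (by
    have := finite_ordPart (k := m) h5 hm
    refine Module.End.eq_zero_of_isNilpotent_isSemisimple ⟨j, ?_⟩ (fibreAlg_semisimple h5 hm a.2)
    rw [← SubmonoidClass.coe_pow, hj]
    rfl)⟩

/-- A pairing injective on the algebra, nondegenerate already on a family of its elements. -/
theorem finrank_eq_and_span {F A V : Type*} [Field F] [AddCommGroup A] [Module F A]
    [FiniteDimensional F A] [AddCommGroup V] [Module F V] [FiniteDimensional F V]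
    (B : A →ₗ[F] Module.Dual F V) (hB : Function.Injective B) (T : ℕ → A)
    (hT : ∀ y : V, (∀ n, B (T n) y = 0) → y = 0) :
    Module.finrank F A = Module.finrank F V ∧ Submodule.span F (Set.range T) = ⊤ := by
  have hflip : Function.Injective B.flip := (injective_iff_map_eq_zero B.flip).2 fun y hy =>
    hT y fun n => LinearMap.congr_fun hy (T n)
  have hdim : Module.finrank F A = Module.finrank F V := le_antisymm
    ((LinearMap.finrank_le_finrank_of_injective hB).trans_eq Subspace.dual_finrank_eq)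
    ((LinearMap.finrank_le_finrank_of_injective hflip).trans_eq Subspace.dual_finrank_eq)
  refine ⟨hdim, ?_⟩
  by_contra hne
  obtain ⟨φ, hφ, hφ0⟩ := Submodule.exists_dual_map_eq_bot_of_lt_top (lt_top_iff_ne_top.2 hne)
    inferInstance
  obtain ⟨y, rfl⟩ := (LinearMap.injective_iff_surjective_of_finrank_eq_finrank
    (by rw [Subspace.dual_finrank_eq, hdim])).1 hflip φ
  refine hφ ?_
  rw [hT y fun n => ?_, map_zero]
  exact (Submodule.eq_bot_iff _).1 hφ0 _ ⟨T n, Submodule.subset_span ⟨n, rfl⟩, rfl⟩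

/-- **The algebra of weight `m` and the ordinary part are dual.** -/
theorem fibre_duality (hc0 : c ≠ 0) (hm : 3 ≤ m)
    (hΦ : ∀ h : ↥(heckeAlg hp2 c), IsFibre h5 hmc (h : Module.End Λ ↥(lamOrd hp2 c))
      (Φ h : Module.End ℚ_[p] ↥(ordPart (natWeight p m)))) :
    Module.finrank ℚ_[p] ↥(fibreAlg p m) = Module.finrank ℚ_[p] ↥(ordPart (natWeight p m)) ∧
      Submodule.span ℚ_[p] (Set.range fun n => Φ (tOf h5 hc0 n)) = ⊤ := by
  have := finite_ordPart (k := m) h5 hm
  have := finite_fibreAlg (m := m) h5 hm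
  obtain ⟨β, hβ⟩ : ∃ β : ↥(fibreAlg p m) →ₗ[ℚ_[p]] Module.Dual ℚ_[p] ↥(ordPart (natWeight p m)),
      ∀ a y, β a y = coeff 1 (((a : Module.End ℚ_[p] ↥(ordPart (natWeight p m))) y :
        ↥(ordPart (natWeight p m))) : PowerSeries ℚ_[p]) :=
    ⟨{ toFun := fun a => ((coeff 1).comp (ordPart (natWeight p m)).subtype).comp
          (a : Module.End ℚ_[p] ↥(ordPart (natWeight p m)))
       map_add' := fun a b => LinearMap.ext fun y => by simp
       map_smul' := fun r a => LinearMap.ext fun y => by simp }, fun _ _ => rfl⟩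
  have hT := coeff_one_tOf (hp2 := hp2) (h5 := h5) (hmc := hmc) (Φ := Φ) hc0 hΦ
  refine finrank_eq_and_span β ((injective_iff_map_eq_zero β).2 fun a ha =>
    Subtype.ext (LinearMap.ext fun y => Subtype.ext (PowerSeries.ext fun n => by
      rw [← hT n, ← Module.End.mul_apply, (fibreAlg_commute (Φ _).2 a.2).eq, Module.End.mul_apply,
        ← hβ, ha]
      simp))) _ fun y hy => Subtype.ext (PowerSeries.ext fun n => ?_)
  rw [← hT n, ← hβ, hy n]
  simp

theorem finrank_heckeAlg_eq (h5 : 5 ≤ p) (hc0 : c ≠ 0) (hmc : (m : ZMod (p - 1)) = c) :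
    Module.finrank Λ ↥(heckeAlg hp2 c) = Module.finrank ℚ_[p] ↥(ordPart (natWeight p m)) := by
  rw [(FA.LambdaHecke.Summary.hida_duality h5 hc0).2.2.2.2 (m : ℤ_[p])]
  subst hmc
  rfl

/-- Distinct systems are independent on a basis. -/
theorem systems_finite_and_le (h5 : 5 ≤ p) (hc0 : c ≠ 0) :
    Finite (Systems K hp2 c m) ∧
      Nat.card (Systems K hp2 c m) ≤ Module.finrank Λ ↥(heckeAlg hp2 c) := by
  classical
  obtain ⟨hfree, hfinT⟩ : Module.Free Λ ↥(heckeAlg hp2 c) ∧ Module.Finite Λ ↥(heckeAlg hp2 c) :=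
    ⟨(heckeAlg_free h5 hc0).1, (heckeAlg_free h5 hc0).2.1⟩
  obtain ⟨b, -⟩ : ∃ b : Module.Basis (Fin (Module.finrank Λ ↥(heckeAlg hp2 c))) Λ
      ↥(heckeAlg hp2 c), True := ⟨Module.finBasis Λ _, trivial⟩
  have hli : LinearIndependent K (fun (lam : Systems K hp2 c m)
      (i : Fin (Module.finrank Λ ↥(heckeAlg hp2 c))) => lam.1 (b i)) := by
    have h0 : LinearIndependent K (fun (lam : Systems K hp2 c m) (h : ↥(heckeAlg hp2 c)) =>
        lam.1 h) :=
      (linearIndependent_monoidHom ↥(heckeAlg hp2 c) K).comp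
        (fun lam : Systems K hp2 c m => lam.1.toMonoidHom)
        fun x y e => Subtype.ext (RingHom.ext fun h => DFunLike.congr_fun e h)
    rw [linearIndependent_iff'] at h0 ⊢
    intro s x hx
    refine h0 s x (funext fun h => ?_)
    have hev : ∀ lam : Systems K hp2 c m, lam.1 h = ∑ i, algebraMap ℚ_[p] K
        ((evalLam hp2 (m : ℤ_[p]) (b.repr h i) : ℤ_[p]) : ℚ_[p]) * lam.1 (b i) := fun lam => by
      conv_lhs => rw [← b.sum_repr h, map_sum]
      exact Finset.sum_congr rfl fun i _ => by rw [Algebra.smul_def, map_mul, lam.2]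
    rw [Finset.sum_apply, Pi.zero_apply]
    simp only [Pi.smul_apply, smul_eq_mul, hev, Finset.mul_sum]
    rw [Finset.sum_comm]
    refine Finset.sum_eq_zero fun i _ => ?_
    have e := congrFun hx i
    rw [Finset.sum_apply, Pi.zero_apply] at e
    simp only [Pi.smul_apply, smul_eq_mul] at e
    rw [Finset.sum_congr rfl fun lam _ => mul_left_comm (x lam) _ _, ← Finset.mul_sum, e, mul_zero]
  have hfinS : Finite (Systems K hp2 c m) := hli.finite
  let : Fintype (Systems K hp2 c m) := Fintype.ofFinite _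
  refine ⟨hfinS, ?_⟩
  rw [Nat.card_eq_fintype_card]
  exact hli.fintype_card_le_finrank.trans_eq (Module.finrank_fin_fun K)

/-- **The systems are the characters of the algebra of weight `m`**, and they are as many as the
rank. -/
theorem exists_systems_equiv (hc0 : c ≠ 0) (hm : 3 ≤ m)
    (hΦ : ∀ h : ↥(heckeAlg hp2 c), IsFibre h5 hmc (h : Module.End Λ ↥(lamOrd hp2 c))
      (Φ h : Module.End ℚ_[p] ↥(ordPart (natWeight p m)))) :
    Nat.card (Systems K hp2 c m) = Module.finrank Λ ↥(heckeAlg hp2 c) ∧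
      ∃ ι : (↥(fibreAlg p m) →ₐ[ℚ_[p]] K) → Systems K hp2 c m,
        Function.Bijective ι ∧ ∀ ψ h, (ι ψ).1 h = ψ (Φ h) := by
  have := finite_fibreAlg (m := m) h5 hm
  have := isReduced_fibreAlg (m := m) h5 hm
  obtain ⟨hfinA, hcardA⟩ := natCard_algHom (F := ℚ_[p]) (A := ↥(fibreAlg p m)) (L := K)
  obtain ⟨hfinS, hle⟩ := systems_finite_and_le (hp2 := hp2) (c := c) (m := m) K h5 hc0
  obtain ⟨hdim, -⟩ := fibre_duality (hp2 := hp2) (h5 := h5) (hmc := hmc) (Φ := Φ) hc0 hm hΦ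
  have hr := finrank_heckeAlg_eq (hp2 := hp2) h5 hc0 hmc
  obtain ⟨ι, hι⟩ : ∃ ι : (↥(fibreAlg p m) →ₐ[ℚ_[p]] K) → Systems K hp2 c m,
      ∀ ψ h, (ι ψ).1 h = ψ (Φ h) :=
    ⟨fun ψ => ⟨ψ.toRingHom.comp Φ, fun a => by
      have e : Φ (algebraMap Λ ↥(heckeAlg hp2 c) a) = algebraMap ℚ_[p] ↥(fibreAlg p m)
          ((evalLam hp2 (m : ℤ_[p]) a : ℤ_[p]) : ℚ_[p]) :=
        Subtype.ext ((hΦ _).unique (IsFibre.of_algebraMap h5 hmc a))
      show ψ (Φ (algebraMap Λ ↥(heckeAlg hp2 c) a)) = _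
      rw [e]
      exact ψ.commutes _⟩, fun _ _ => rfl⟩
  have hinj : Function.Injective ι := fun ψ ψ' e => by
    refine AlgHom.adjoin_ext fun a ha => ?_
    obtain ⟨h, hh⟩ := adjoin_range_eq hm hΦ ha
    have e' := congrArg (fun s : Systems K hp2 c m => s.1 h) e
    simp only [hι] at e'
    have key : ∀ z : ↥(fibreAlg p m),
        (z : Module.End ℚ_[p] ↥(ordPart (natWeight p m))) = a → ψ z = ψ' z := fun z hz => by
      rw [show z = Φ h from Subtype.ext (hz.trans hh.symm)]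
      exact e'
    exact key _ rfl
  have hcard : Nat.card (Systems K hp2 c m) = Module.finrank Λ ↥(heckeAlg hp2 c) :=
    le_antisymm hle (by rw [hr, ← hdim, ← hcardA]; exact Nat.card_le_card_of_injective ι hinj)
  exact ⟨hcard, ι, hinj.bijective_of_nat_card_le (by rw [hcard, hcardA, hdim, hr]), hι⟩

/-- The eigenseries are independent. -/
theorem linearIndependent_eigSer (h5 : 5 ≤ p) (hc0 : c ≠ 0) (hm : 3 ≤ m)
    (hmc : (m : ZMod (p - 1)) = c) :
    LinearIndependent K (fun lam : Systems K hp2 c m => eigSer h5 hc0 lam.1) := by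
  obtain ⟨Φ, hΦ⟩ := exists_fibreHom (hp2 := hp2) h5 hm hmc
  obtain ⟨-, hspan⟩ := fibre_duality (hp2 := hp2) (h5 := h5) (hmc := hmc) (Φ := Φ) hc0 hm hΦ
  obtain ⟨-, ι, hbij, hι⟩ := exists_systems_equiv (hp2 := hp2) (h5 := h5) (hmc := hmc) (Φ := Φ) K
    hc0 hm hΦ
  obtain ⟨κ, hκ⟩ : ∃ κ : Systems K hp2 c m → (↥(fibreAlg p m) →ₐ[ℚ_[p]] K),
      ∀ lam, ι (κ lam) = lam := ⟨_, Function.surjInv_eq hbij.2⟩
  have h0 : LinearIndependent K
      (fun ψ : ↥(fibreAlg p m) →ₐ[ℚ_[p]] K => (ψ : ↥(fibreAlg p m) → K)) :=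
    (linearIndependent_monoidHom ↥(fibreAlg p m) K).comp
      (fun ψ : ↥(fibreAlg p m) →ₐ[ℚ_[p]] K => ψ.toRingHom.toMonoidHom)
      fun a b e => AlgHom.ext fun z => DFunLike.congr_fun e z
  have h1 := h0.comp κ fun a b e => by rw [← hκ a, e, hκ b]
  rw [linearIndependent_iff'] at h1 ⊢
  intro s x hx
  refine h1 s x (funext fun z => ?_)
  rw [Finset.sum_apply, Pi.zero_apply]
  obtain ⟨φ, hφ⟩ : ∃ φ : ↥(fibreAlg p m) →ₗ[ℚ_[p]] K,
      φ = ∑ lam ∈ s, x lam • (κ lam).toLinearMap := ⟨_, rfl⟩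
  have hz : φ = 0 := LinearMap.ext_on_range (v := fun n => Φ (tOf h5 hc0 n)) hspan fun n => by
    have e := congrArg (coeff n) hx
    rw [map_sum, map_zero] at e
    rw [hφ, LinearMap.sum_apply, LinearMap.zero_apply, ← e]
    refine Finset.sum_congr rfl fun lam _ => ?_
    rw [LinearMap.smul_apply, PowerSeries.coeff_smul, coeff_eigSer, AlgHom.toLinearMap_apply,
      ← hι, hκ]
  have e := LinearMap.congr_fun hz z
  rw [hφ, LinearMap.sum_apply, LinearMap.zero_apply] at e
  exact e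

/-- **The systems of a weight**: as many as the rank, with eigenseries a basis of the extended
ordinary part. -/
theorem systems_count (h5 : 5 ≤ p) (hc0 : c ≠ 0) (hm : 3 ≤ m) (hmc : (m : ZMod (p - 1)) = c) :
    Finite (Systems K hp2 c m) ∧
      Nat.card (Systems K hp2 c m) = Module.finrank Λ ↥(heckeAlg hp2 c) ∧
      LinearIndependent K (fun lam : Systems K hp2 c m => eigSer h5 hc0 lam.1) ∧
      Submodule.span K (Set.range fun lam : Systems K hp2 c m => eigSer h5 hc0 lam.1) =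
        Submodule.span K
          (PowerSeries.map (algebraMap ℚ_[p] K) '' ↑(ordPart (natWeight p m))) := by
  classical
  obtain ⟨Φ, hΦ⟩ := exists_fibreHom (hp2 := hp2) h5 hm hmc
  obtain ⟨hcard, -⟩ := exists_systems_equiv (hp2 := hp2) (h5 := h5) (hmc := hmc) (Φ := Φ) K
    hc0 hm hΦ
  obtain ⟨hfinS, -⟩ := systems_finite_and_le (hp2 := hp2) (c := c) (m := m) K h5 hc0
  have hr := finrank_heckeAlg_eq (hp2 := hp2) h5 hc0 hmc
  have hind := linearIndependent_eigSer (hp2 := hp2) K h5 hc0 hm hmc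
  have := finite_ordPart (k := m) h5 hm
  let : Fintype (Systems K hp2 c m) := Fintype.ofFinite _
  refine ⟨hfinS, hcard, hind, ?_⟩
  obtain ⟨N, hN⟩ : ∃ N : Submodule K (PowerSeries K), N = Submodule.span K
      (PowerSeries.map (algebraMap ℚ_[p] K) '' ↑(ordPart (natWeight p m))) := ⟨_, rfl⟩
  rw [← hN]
  obtain ⟨e, -⟩ : ∃ e : Module.Basis (Fin (Module.finrank ℚ_[p] ↥(ordPart (natWeight p m)))) ℚ_[p]
      ↥(ordPart (natWeight p m)), True := ⟨Module.finBasis ℚ_[p] _, trivial⟩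
  have hNle : N ≤ Submodule.span K (Set.range fun j =>
      PowerSeries.map (algebraMap ℚ_[p] K) ((e j : ↥(ordPart (natWeight p m))) :
        PowerSeries ℚ_[p])) := by
    rw [hN]
    refine Submodule.span_le.2 ?_
    rintro _ ⟨y, hy, rfl⟩
    have ey := congrArg (fun z : ↥(ordPart (natWeight p m)) => (z : PowerSeries ℚ_[p]))
      (e.sum_repr ⟨y, hy⟩)
    simp only [Submodule.coe_sum, Submodule.coe_smul, PowerSeries.smul_eq_C_mul] at ey
    rw [← ey, map_sum]
    refine Submodule.sum_mem _ fun j _ => ?_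
    rw [map_mul, PowerSeries.map_C, ← PowerSeries.smul_eq_C_mul]
    exact Submodule.smul_mem _ _ (Submodule.subset_span ⟨j, rfl⟩)
  have : Module.Finite K ↥(Submodule.span K (Set.range fun j =>
      PowerSeries.map (algebraMap ℚ_[p] K) ((e j : ↥(ordPart (natWeight p m))) :
        PowerSeries ℚ_[p]))) := .span_of_finite _ (Set.finite_range _)
  have : Module.Finite K ↥N := Submodule.finiteDimensional_of_le hNle
  refine Submodule.eq_of_le_of_finrank_le (Submodule.span_le.2 ?_) ?_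
  · rintro _ ⟨lam, rfl⟩
    obtain ⟨r, x, G, hG, eG⟩ := eigSer_expansion h5 hc0 lam.1
    show eigSer h5 hc0 lam.1 ∈ N
    rw [eG]
    refine Submodule.sum_mem _ fun j _ => ?_
    rw [← PowerSeries.smul_eq_C_mul, hN]
    refine Submodule.smul_mem _ _ (Submodule.subset_span
      ⟨_, spec_mem h5 hmc ⟨G j, (mem_lamOrd h5).2 (hG j)⟩, PowerSeries.ext fun n => ?_⟩)
    rw [coeff_map, coeff_toQps, coeff_spec, coeff_map, RingHom.comp_apply, lam.2]
  · refine ((Submodule.finrank_mono hNle).trans (finrank_range_le_card _)).trans ?_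
    rw [finrank_span_eq_card hind, Fintype.card_fin, ← hr, ← hcard, Nat.card_eq_fintype_card]

end FA.OrdinaryReduced

end
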