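import Mathlib.LinearAlgebra.JordanChevalley
import Mathlib.LinearAlgebra.Semisimple
import Mathlib.RingTheory.Nilpotent.Basic

/-!
# Semisimple endomorphisms

Transfer along a surjection, algebras generated by commuting semisimple endomorphisms, and an
endomorphism `u` with `u ^ 2 - t u + q = 0`.
-/

set_option autoImplicit false
set_option linter.unusedSectionVars false

noncomputable section

open Polynomial

namespace FA.OrdinaryReduced

variable {K V W : Type*} [Field K] [AddCommGroup V] [Module K V] [FiniteDimensional K V]
  [AddCommGroup W] [Module K W]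

/-- A semisimple endomorphism stays so on a quotient. -/
theorem isSemisimple_of_surjective {a : Module.End K V} {b : Module.End K W} (g : V →ₗ[K] W)
    (hg : Function.Surjective g) (hab : ∀ x, b (g x) = g (a x)) (ha : a.IsSemisimple) :
    b.IsSemisimple := by
  have h : ∀ (P : K[X]) (x : V), aeval b P (g x) = g (aeval a P x) := fun P => by
    induction P using Polynomial.induction_on with
    | C c => intro x; simp [Module.algebraMap_end_apply]
    | add P Q hP hQ => intro x; simp [hP x, hQ x]
    | monomial n c ih =>
      intro x
      rw [pow_succ, ← mul_assoc, map_mul, map_mul (aeval a), aeval_X, aeval_X,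
        Module.End.mul_apply, Module.End.mul_apply, hab, ih]
  refine Module.End.isSemisimple_of_squarefree_aeval_eq_zero ha.minpoly_squarefree
    (LinearMap.ext fun y => ?_)
  obtain ⟨x, rfl⟩ := hg y
  rw [h, minpoly.aeval, LinearMap.zero_apply, map_zero, LinearMap.zero_apply]

variable [PerfectField K]

/-- **Commuting semisimple endomorphisms generate an algebra of semisimple ones.** -/
theorem isSemisimple_of_mem_adjoin {S : Set (Module.End K V)} (hS : ∀ a ∈ S, a.IsSemisimple)
    (hc : ∀ a ∈ S, ∀ b ∈ S, Commute a b) {f : Module.End K V} (hf : f ∈ Algebra.adjoin K S) :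
    f.IsSemisimple := by
  have hcomm : ∀ a ∈ Algebra.adjoin K S, ∀ b ∈ Algebra.adjoin K S, Commute a b := fun a ha b hb =>
    (Algebra.commute_of_mem_adjoin_of_forall_mem_commute ha fun x hx =>
      (Algebra.commute_of_mem_adjoin_of_forall_mem_commute hb fun y hy => hc x hx y hy).symm).symm
  induction hf using Algebra.adjoin_induction with
  | mem x hx => exact hS x hx
  | algebraMap r =>
    refine Module.End.isSemisimple_of_squarefree_aeval_eq_zero
      (p := X - Polynomial.C r) (Polynomial.irreducible_X_sub_C r).squarefree ?_
    rw [map_sub, aeval_X, aeval_C, sub_self]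
  | add x y hx hy ihx ihy => exact ihx.add_of_commute (hcomm x hx y hy) ihy
  | mul x y hx hy ihx ihy => exact ihx.mul_of_commute (hcomm x hx y hy) ihy

/-- **A root of a quadratic over a semisimple endomorphism.** If `t u = u ^ 2 + q` with `t`
semisimple and `u ^ 2 - q` invertible, then `u` is semisimple. -/
theorem isSemisimple_of_quadratic {u t : Module.End K V} {q : K} (hc : Commute t u)
    (h : t * u = u * u + algebraMap K (Module.End K V) q) (ht : t.IsSemisimple)
    (hu : IsUnit (u * u - algebraMap K (Module.End K V) q)) : u.IsSemisimple := by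
  obtain ⟨n, hn, s, hs, hnil, hss, hdec⟩ :=
    Module.End.exists_isNilpotent_isSemisimple (K := K) (f := u)
  have hcs : ∀ a ∈ Algebra.adjoin K ({u, t} : Set (Module.End K V)),
      ∀ b ∈ Algebra.adjoin K ({u, t} : Set (Module.End K V)), Commute a b := by
    have h2 : ∀ a ∈ ({u, t} : Set (Module.End K V)), ∀ b ∈ ({u, t} : Set (Module.End K V)),
        Commute a b := by
      rintro a (rfl | rfl) b (rfl | rfl)
      exacts [Commute.refl _, hc.symm, hc, Commute.refl _]
    exact fun a ha b hb =>
      (Algebra.commute_of_mem_adjoin_of_forall_mem_commute ha fun x hx =>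
        (Algebra.commute_of_mem_adjoin_of_forall_mem_commute hb fun y hy => h2 x hx y hy).symm).symm
  have hle : Algebra.adjoin K ({u} : Set (Module.End K V)) ≤
      Algebra.adjoin K ({u, t} : Set (Module.End K V)) :=
    Algebra.adjoin_mono (Set.singleton_subset_iff.2 (Or.inl rfl))
  have htA : t ∈ Algebra.adjoin K ({u, t} : Set (Module.End K V)) :=
    Algebra.subset_adjoin (Or.inr rfl)
  obtain ⟨D, hD⟩ : ∃ D, D = n * (n + 2 * s - t) := ⟨_, rfl⟩
  have hns : Commute n s := hcs n (hle hn) s (hle hs)
  have hnt : Commute n t := hcs n (hle hn) t htA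
  have hst : Commute s t := hcs s (hle hs) t htA
  have hD' : D = s * t - s * s - algebraMap K (Module.End K V) q := by
    have e : algebraMap K (Module.End K V) q = t * u - u * u := by rw [h, add_sub_cancel_left]
    rw [hD, e, hdec]
    simp only [mul_add, add_mul, mul_sub, two_mul, hns.eq, hnt.eq, hst.eq]
    abel
  have hDss : D.IsSemisimple := by
    rw [hD']
    refine isSemisimple_of_mem_adjoin (S := {s, t}) ?_ ?_ ?_
    · rintro a (rfl | rfl)
      exacts [hss, ht]
    · rintro a (rfl | rfl) b (rfl | rfl)
      exacts [Commute.refl _, hst, hst.symm, Commute.refl _]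
    · exact sub_mem (sub_mem (mul_mem (Algebra.subset_adjoin (Or.inl rfl))
        (Algebra.subset_adjoin (Or.inr rfl))) (mul_mem (Algebra.subset_adjoin (Or.inl rfl))
        (Algebra.subset_adjoin (Or.inl rfl)))) (Subalgebra.algebraMap_mem _ q)
  have hDnil : IsNilpotent D := by
    rw [hD]
    refine Commute.isNilpotent_mul_right ?_ hnil
    exact ((Commute.refl n).add_right ((Commute.ofNat_right n 2).mul_right hns)).sub_right hnt
  have hD0 : D = 0 := Module.End.eq_zero_of_isNilpotent_isSemisimple hDnil hDss
  have hnu : Commute n u := hcs n (hle hn) u (Algebra.subset_adjoin (Or.inl rfl))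
  have hunit : IsUnit (u * u - algebraMap K (Module.End K V) q - n * u) := by
    rw [sub_eq_add_neg]
    refine IsNilpotent.isUnit_add_left_of_commute ?_ hu ?_
    · exact (hnu.isNilpotent_mul_right hnil).neg
    · exact (((hnu.mul_right hnu).sub_right (Algebra.commutes q n).symm).mul_left
        (((Commute.refl u).mul_right (Commute.refl u)).sub_right
          (Algebra.commutes q u).symm)).neg_left
  have hw : u * u - algebraMap K (Module.End K V) q - n * u = (n + 2 * s - t) * u := by
    rw [sub_mul _ t, h, hdec]
    simp only [mul_add, add_mul, two_mul, hns.eq]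
    abel
  rw [hw] at hunit
  have h0 : n * ((n + 2 * s - t) * u) = 0 := by rw [← mul_assoc, ← hD, hD0, zero_mul]
  rw [hunit.mul_left_eq_zero] at h0
  rwa [hdec, h0, zero_add]

end FA.OrdinaryReduced

end
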