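import Fermat.Agent.OrdinaryReduced.LevelOne
import Fermat.Agent.OrdinaryReduced.Semisimple
import Fermat.Agent.LevelOneControl.Control
import Mathlib.FieldTheory.Perfect

/-!
# The ordinary part of an integral weight is semisimple

`T_l` is semisimple on the forms of level one, so on their image under the projector; `U` satisfies
`U ^ 2 - T_p U + p ^ (k - 1) = 0` there.
-/

set_option autoImplicit false
set_option linter.unusedSectionVars false

noncomputable section

open PowerSeries Filter Topology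

namespace FA.OrdinaryReduced

open FA.PadicForms FA.OrdinaryProj FA.LambdaHecke FA.LevelOneControl FA.DeltaFamily

variable {p : ℕ} [Fact p.Prime] {k : ℕ}

theorem finite_ordPart (h5 : 5 ≤ p) (hk : 3 ≤ k) :
    FiniteDimensional ℚ_[p] ↥(ordPart (natWeight p k)) :=
  (finrank_ordPart h5 hk rfl).1

/-- **`T_l` is semisimple on the forms of level one.** -/
theorem exists_tW (hk : 3 ≤ k) {l : ℕ} (hl : l.Prime) :
    ∃ a : Module.End ℚ_[p] ↥(qpSpace p k), a.IsSemisimple ∧
      ∀ x : ↥(qpSpace p k),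
        (a x : PowerSeries ℚ_[p]) = tSer ((l : ℚ_[p]) ^ (k - 1)) l (x : PowerSeries ℚ_[p]) := by
  obtain ⟨τ, hτ⟩ : ∃ τ : Module.End ℚ_[p] (PowerSeries ℚ_[p]),
      τ = tSer ((l : ℚ_[p]) ^ (k - 1)) l := ⟨_, rfl⟩
  have hst : ∀ x ∈ qpSpace p k, τ x ∈ qpSpace p k := fun x hx => hτ ▸ tSer_mem (by omega) hl hx
  obtain ⟨P, hP, hP0⟩ := exists_squarefree hk hl
  have hgen : ∀ (Q : Polynomial ℚ) (S : PowerSeries ℚ),
      Polynomial.aeval τ (Q.map (algebraMap ℚ ℚ_[p])) (toQp p S) =
        toQp p (Polynomial.aeval (opT k l) Q S) := fun Q => by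
    induction Q using Polynomial.induction_on with
    | C c =>
      intro S
      rw [Polynomial.map_C, Polynomial.aeval_C, Polynomial.aeval_C, Module.algebraMap_end_apply,
        Module.algebraMap_end_apply, PowerSeries.smul_eq_C_mul, PowerSeries.smul_eq_C_mul, map_mul,
        toQp, PowerSeries.map_C, eq_ratCast, eq_ratCast]
    | add Q R hQ hR =>
      intro S
      rw [Polynomial.map_add, map_add, LinearMap.add_apply, hQ, hR, map_add (Polynomial.aeval _),
        LinearMap.add_apply, map_add (toQp p)]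
    | monomial n c ih =>
      intro S
      rw [pow_succ, ← mul_assoc, Polynomial.map_mul, Polynomial.map_X, map_mul, Polynomial.aeval_X,
        map_mul (Polynomial.aeval (opT k l)), Polynomial.aeval_X, Module.End.mul_apply,
        Module.End.mul_apply, ← ih, hτ, opT, toQp, map_tSer, map_pow, map_natCast]
  have hzero : ∀ x ∈ qpSpace p k,
      Polynomial.aeval τ (P.map (algebraMap ℚ ℚ_[p])) x = 0 := fun x hx => by
    induction hx using Submodule.span_induction with
    | mem x hx =>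
      obtain ⟨S, hS, rfl⟩ := hx
      rw [hgen, hP0 S hS, map_zero]
    | zero => exact map_zero _
    | add x y _ _ hx hy => rw [map_add, hx, hy, add_zero]
    | smul c x _ hx => rw [map_smul, hx, smul_zero]
  refine ⟨τ.restrict hst, Module.End.isSemisimple_of_squarefree_aeval_eq_zero
    (p := P.map (algebraMap ℚ ℚ_[p]))
    ((PerfectField.separable_iff_squarefree.2 hP).map).squarefree
    (LinearMap.ext fun x => Subtype.ext ?_), fun x => by rw [← hτ]; rfl⟩
  have hres : ∀ (Q : Polynomial ℚ_[p]) (y : ↥(qpSpace p k)),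
      ((Polynomial.aeval (τ.restrict hst) Q y : ↥(qpSpace p k)) : PowerSeries ℚ_[p]) =
        Polynomial.aeval τ Q (y : PowerSeries ℚ_[p]) := fun Q => by
    induction Q using Polynomial.induction_on with
    | C c => intro y; simp [Module.algebraMap_end_apply]
    | add Q R hQ hR => intro y; simp [hQ y, hR y]
    | monomial n c ih =>
      intro y
      rw [pow_succ, ← mul_assoc, map_mul, map_mul (Polynomial.aeval τ), Polynomial.aeval_X,
        Polynomial.aeval_X, Module.End.mul_apply, Module.End.mul_apply, ih]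
      rfl
  rw [hres, hzero x x.2]
  rfl

/-- The projector on the forms of level one. -/
theorem exists_eW (h5 : 5 ≤ p) (hk : 3 ≤ k) :
    ∃ g : ↥(qpSpace p k) →ₗ[ℚ_[p]] ↥(ordPart (natWeight p k)), Function.Surjective g ∧
      ∀ x : ↥(qpSpace p k),
        (g x : PowerSeries ℚ_[p]) = ordProj p (x : PowerSeries ℚ_[p]) := by
  refine ⟨{ toFun := fun x => ⟨_, ordProj_mem h5 (isPadicForm_of_mem h5 x.2)⟩
            map_add' := fun x y => Subtype.ext
              (ordProj_add h5 (isPadicForm_of_mem h5 x.2) (isPadicForm_of_mem h5 y.2))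
            map_smul' := fun c x => Subtype.ext (by
              show ordProj p (c • (x : PowerSeries ℚ_[p])) = c • ordProj p (x : PowerSeries ℚ_[p])
              rw [PowerSeries.smul_eq_C_mul, PowerSeries.smul_eq_C_mul,
                ordProj_C_mul h5 (isPadicForm_of_mem h5 x.2)]) }, fun y => ?_, fun _ => rfl⟩
  obtain ⟨h, hh, -, hhe⟩ := exists_classical h5 hk y.2
  refine ⟨⟨h, Submodule.span_mono ?_ hh⟩, Subtype.ext hhe⟩
  rintro s ⟨S, hS, rfl⟩
  exact ⟨S, hS, rfl⟩

/-- The generators on the ordinary part of weight `k`. -/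
def IsFibreGen (p k : ℕ) [Fact p.Prime]
    (a : Module.End ℚ_[p] ↥(ordPart (natWeight p k))) : Prop :=
  (∀ x, (a x : PowerSeries ℚ_[p]) = uSer p (x : PowerSeries ℚ_[p])) ∨
    ∃ l : ℕ, l.Prime ∧ l ≠ p ∧
      ∀ x, (a x : PowerSeries ℚ_[p]) = tSer ((l : ℚ_[p]) ^ (k - 1)) l (x : PowerSeries ℚ_[p])

theorem exists_tOrd (h5 : 5 ≤ p) (hk : 3 ≤ k) {l : ℕ} (hl : l.Prime) (hlp : l ≠ p) :
    ∃ a : Module.End ℚ_[p] ↥(ordPart (natWeight p k)), a.IsSemisimple ∧
      ∀ x : ↥(ordPart (natWeight p k)),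
        (a x : PowerSeries ℚ_[p]) = tSer ((l : ℚ_[p]) ^ (k - 1)) l (x : PowerSeries ℚ_[p]) := by
  obtain ⟨aW, hss, haW⟩ := exists_tW (p := p) hk hl
  obtain ⟨g, hg, hge⟩ := exists_eW (p := p) (k := k) h5 hk
  have heq : ∀ x, (g (aW x) : PowerSeries ℚ_[p]) =
      tSer ((l : ℚ_[p]) ^ (k - 1)) l (g x : PowerSeries ℚ_[p]) := fun x => by
    have h := ordProj_tSer (θ := (l : ℤ_[p]) ^ (k - 1)) h5 hl hlp (isPadicForm_of_mem h5 x.2)
    rw [PadicInt.coe_pow, PadicInt.coe_natCast] at h
    rw [hge, hge, haW, h]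
  have hmem : ∀ y ∈ ordPart (natWeight p k),
      tSer ((l : ℚ_[p]) ^ (k - 1)) l y ∈ ordPart (natWeight p k) := fun y hy => by
    obtain ⟨x, hx⟩ := hg ⟨y, hy⟩
    rw [← show (g x : PowerSeries ℚ_[p]) = y from congrArg Subtype.val hx, ← heq x]
    exact (g (aW x)).2
  have := finite_ordPart h5 hk
  exact ⟨(tSer ((l : ℚ_[p]) ^ (k - 1)) l).restrict hmem,
    isSemisimple_of_surjective g hg (fun x => Subtype.ext (heq x).symm) hss, fun _ => rfl⟩

theorem eq_zero_of_uSer_sq (h5 : 5 ≤ p) {κ : Weights p} {x : PowerSeries ℚ_[p]}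
    (hx : x ∈ ordPart κ) {q : ℚ_[p]} (hq : ‖q‖ < 1) (h : uSer p (uSer p x) = C q * x) : x = 0 := by
  obtain ⟨h1, h2⟩ := (mem_ordPart h5).1 hx
  have hpow : ∀ j, uPow p (2 * j) x = C (q ^ j) * x := fun j => by
    induction j with
    | zero => rw [mul_zero, uPow_zero, pow_zero, map_one, one_mul]
    | succ j ih =>
      rw [show 2 * (j + 1) = 2 * j + 1 + 1 by ring, ← uPow_add', ← uPow_add', uPow_one, uPow_one,
        h, uPow_C_mul, ih, ← mul_assoc, ← map_mul, pow_succ']
  have hlim : Tendsto (fun i : ℕ => q ^ (i.factorial / 2)) atTop (𝓝 0) :=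
    (tendsto_pow_atTop_nhds_zero_of_norm_lt_one hq).comp (tendsto_atTop_atTop.2 fun b =>
      ⟨2 * b, fun i hi => (Nat.le_div_iff_mul_le two_pos).2
        (le_trans (by omega) (Nat.self_le_factorial i))⟩)
  rw [← h2]
  refine ordProj_eq fun ε hε => ?_
  have hC := seriesTendsto_C_mul h1.exists_supLe hlim
  rw [map_zero, zero_mul] at hC
  filter_upwards [hC ε hε, eventually_ge_atTop 2] with i hi hi2
  obtain ⟨j, hj⟩ := Nat.dvd_factorial two_pos hi2
  rw [hj, Nat.mul_div_cancel_left _ two_pos] at hi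
  rw [hj, hpow]
  exact hi

theorem exists_uOrd (h5 : 5 ≤ p) (hk : 3 ≤ k) :
    ∃ u : Module.End ℚ_[p] ↥(ordPart (natWeight p k)), u.IsSemisimple ∧
      ∀ x : ↥(ordPart (natWeight p k)),
        (u x : PowerSeries ℚ_[p]) = uSer p (x : PowerSeries ℚ_[p]) := by
  obtain ⟨aW, hss, haW⟩ := exists_tW (p := p) hk (Fact.out : p.Prime)
  obtain ⟨g, hg, hge⟩ := exists_eW (p := p) (k := k) h5 hk
  have := finite_ordPart h5 hk
  obtain ⟨q, hq⟩ : ∃ q, q = (p : ℚ_[p]) ^ (k - 1) := ⟨_, rfl⟩
  have hq1 : ‖q‖ < 1 := by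
    rw [hq, norm_pow]
    exact pow_lt_one₀ (norm_nonneg _) Padic.norm_p_lt_one (by omega)
  obtain ⟨u, hu⟩ : ∃ u : Module.End ℚ_[p] ↥(ordPart (natWeight p k)),
      ∀ x, (u x : PowerSeries ℚ_[p]) = uSer p (x : PowerSeries ℚ_[p]) :=
    ⟨{ toFun := fun x => ⟨uSer p (x : PowerSeries ℚ_[p]), uSer_mem h5 x.2⟩
       map_add' := fun x y => Subtype.ext (PowerSeries.ext fun n => by simp [coeff_uSer])
       map_smul' := fun c x => Subtype.ext (PowerSeries.ext fun n => by simp [coeff_uSer]) },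
      fun _ => rfl⟩
  have hinj : Function.Injective u := (injective_iff_map_eq_zero u).2 fun x hx =>
    Subtype.ext (eq_zero_of_uSer h5 x.2 (by rw [← hu, hx]; rfl))
  have hunit : IsUnit u := (LinearMap.isUnit_iff_ker_eq_bot u).2 (LinearMap.ker_eq_bot.2 hinj)
  obtain ⟨v, hv⟩ := hunit
  obtain ⟨t, ht⟩ : ∃ t, t = (↑v⁻¹ : Module.End ℚ_[p] ↥(ordPart (natWeight p k))) *
      (u * u + algebraMap ℚ_[p] _ q) := ⟨_, rfl⟩
  have hcom : Commute u (u * u + algebraMap ℚ_[p] _ q) :=
    ((Commute.refl u).mul_right (Commute.refl u)).add_right (Algebra.commutes q u).symm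
  have hut : u * t = u * u + algebraMap ℚ_[p] _ q := by
    rw [ht, ← hv, ← mul_assoc, Units.mul_inv, one_mul]
  have htu : t * u = u * u + algebraMap ℚ_[p] _ q := by
    rw [ht, mul_assoc, ← hcom.eq, ← mul_assoc, ← hv, Units.inv_mul, one_mul]
  have hint : ∀ x, t (g x) = g (aW x) := fun x => hinj (by
    rw [← Module.End.mul_apply, hut, LinearMap.add_apply, Module.End.mul_apply,
      Module.algebraMap_end_apply]
    refine Subtype.ext ?_
    have hF := isPadicForm_of_mem h5 x.2
    rw [hu, Submodule.coe_add, hu, hu, Submodule.coe_smul, hge, hge, haW, tSer_self, ← hq,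
      ordProj_add h5 (hF.uSer h5) ((hF.vSer h5).C_mul q), ordProj_C_mul h5 (hF.vSer h5),
      ordProj_uSer h5 hF, PowerSeries.smul_eq_C_mul]
    have hv' : uSer p (ordProj p (vSer p (x : PowerSeries ℚ_[p]))) =
        ordProj p (x : PowerSeries ℚ_[p]) := by
      rw [← ordProj_uSer h5 (hF.vSer h5), uSer_vSer]
    refine PowerSeries.ext fun n => ?_
    have hn := congrArg (coeff n) hv'
    rw [coeff_uSer] at hn
    simp only [map_add, coeff_uSer, coeff_C_mul, hn])
  refine ⟨u, isSemisimple_of_quadratic (t := t) (q := q) ?_ htu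
    (isSemisimple_of_surjective g hg hint hss) ?_, hu⟩
  · exact htu.trans hut.symm
  · refine (LinearMap.isUnit_iff_ker_eq_bot _).2 (LinearMap.ker_eq_bot'.2 fun x hx => ?_)
    rw [LinearMap.sub_apply, Module.End.mul_apply, Module.algebraMap_end_apply, sub_eq_zero] at hx
    refine Subtype.ext (eq_zero_of_uSer_sq h5 x.2 hq1 ?_)
    rw [← hu, ← hu, hx, Submodule.coe_smul, PowerSeries.smul_eq_C_mul]

theorem isFibreGen_semisimple (h5 : 5 ≤ p) (hk : 3 ≤ k)
    {a : Module.End ℚ_[p] ↥(ordPart (natWeight p k))} (ha : IsFibreGen p k a) :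
    a.IsSemisimple := by
  rcases ha with ha | ⟨l, hl, hlp, ha⟩
  · obtain ⟨u, hs, hu⟩ := exists_uOrd (p := p) h5 hk
    rwa [show a = u from LinearMap.ext fun x => Subtype.ext (by rw [ha, hu])]
  · obtain ⟨t, hs, ht⟩ := exists_tOrd (p := p) h5 hk hl hlp
    rwa [show a = t from LinearMap.ext fun x => Subtype.ext (by rw [ha, ht])]

theorem isFibreGen_commute {a b : Module.End ℚ_[p] ↥(ordPart (natWeight p k))}
    (ha : IsFibreGen p k a) (hb : IsFibreGen p k b) : Commute a b := by
  refine LinearMap.ext fun x => Subtype.ext ?_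
  rw [Module.End.mul_apply, Module.End.mul_apply]
  rcases ha with ha | ⟨l, hl, hlp, ha⟩ <;> rcases hb with hb | ⟨m, hm, hmp, hb⟩
  · rw [ha, hb, hb, ha]
  · rw [ha, hb, hb, ha, tSer_uSer _ hm hmp]
  · rw [ha, hb, hb, ha, tSer_uSer _ hl hlp]
  · rcases eq_or_ne l m with rfl | hne
    · rw [ha, hb, hb, ha]
    · rw [ha, hb, hb, ha, tSer_comm _ _ hl hm hne]

/-- The Hecke algebra of the ordinary part of weight `k`. -/
def fibreAlg (p k : ℕ) [Fact p.Prime] :
    Subalgebra ℚ_[p] (Module.End ℚ_[p] ↥(ordPart (natWeight p k))) :=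
  Algebra.adjoin _ {a | IsFibreGen p k a}

/-- **Every element of it is semisimple.** -/
theorem fibreAlg_semisimple (h5 : 5 ≤ p) (hk : 3 ≤ k)
    {a : Module.End ℚ_[p] ↥(ordPart (natWeight p k))} (ha : a ∈ fibreAlg p k) :
    a.IsSemisimple := by
  have := finite_ordPart h5 hk
  exact isSemisimple_of_mem_adjoin (fun b hb => isFibreGen_semisimple h5 hk hb)
    (fun b hb b' hb' => isFibreGen_commute hb hb') ha

end FA.OrdinaryReduced

end
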