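import Fermat.Agent.LevelOneControl.Space
import Fermat.Agent.VerticalSatoTate.Symmetric
import Fermat.Agent.Eisenstein.LiftLevelOne
import Fermat.Agent.Root.SummaryEisensteinCongruence
import Mathlib.LinearAlgebra.Semisimple

/-!
# The Hecke operators of level one are semisimple

A rational polynomial in `T_l` whose square kills a form kills it: on cusp forms by the symmetry for
the Petersson product, and the Eisenstein series is an eigenform. So the minimal polynomial of `T_l`
on the rational forms is squarefree.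
-/

set_option autoImplicit false
set_option linter.unusedSectionVars false

noncomputable section

open UpperHalfPlane hiding I
open CongruenceSubgroup Polynomial
open scoped MatrixGroups ModularForm ArithmeticFunction.sigma

namespace FA.OrdinaryReduced

open FA.PadicForms FA.LambdaHecke FA.LevelOneControl FA.EisCong

variable {k l : ℕ}

/-- `T_l` of weight `k` on rational series. -/
def opT (k l : ℕ) : Module.End ℚ (PowerSeries ℚ) := tSer ((l : ℚ) ^ (k - 1)) l

theorem aeval_mem {K V : Type*} [Field K] [AddCommGroup V] [Module K V] (τ : Module.End K V)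
    (M : Submodule K V) (hτ : ∀ x ∈ M, τ x ∈ M) (P : K[X]) {x : V} (hx : x ∈ M) :
    aeval τ P x ∈ M := by
  induction P using Polynomial.induction_on generalizing x with
  | C a =>
    rw [aeval_C, Module.algebraMap_end_apply]
    exact M.smul_mem a hx
  | add P Q hP hQ =>
    rw [map_add, LinearMap.add_apply]
    exact M.add_mem (hP hx) (hQ hx)
  | monomial n a ih =>
    rw [pow_succ, ← mul_assoc, map_mul, aeval_X, Module.End.mul_apply]
    exact ih (hτ _ hx)

theorem aeval_eigen {K V : Type*} [Field K] [AddCommGroup V] [Module K V] {τ : Module.End K V}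
    {t : K} {x : V} (hx : τ x = t • x) (P : K[X]) : aeval τ P x = P.eval t • x := by
  induction P using Polynomial.induction_on with
  | C a => rw [aeval_C, Module.algebraMap_end_apply, eval_C]
  | add P Q hP hQ => rw [map_add, LinearMap.add_apply, hP, hQ, eval_add, add_smul]
  | monomial n a ih =>
    rw [pow_succ, ← mul_assoc, map_mul, aeval_X, Module.End.mul_apply, hx, map_smul, ih, smul_smul,
      eval_mul (q := X), eval_X, mul_comm t]

theorem coeff_zero_aeval (P : ℚ[X]) (S : PowerSeries ℚ) :
    PowerSeries.coeff 0 (aeval (opT k l) P S) =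
      P.eval (1 + (l : ℚ) ^ (k - 1)) * PowerSeries.coeff 0 S := by
  induction P using Polynomial.induction_on generalizing S with
  | C a => rw [aeval_C, Module.algebraMap_end_apply, eval_C, map_smul, smul_eq_mul]
  | add P Q hP hQ => rw [map_add, LinearMap.add_apply, map_add, hP, hQ, eval_add, add_mul]
  | monomial n a ih =>
    rw [pow_succ, ← mul_assoc, map_mul, aeval_X, Module.End.mul_apply, ih, eval_mul (q := X),
      eval_X, opT, coeff_tSer, zero_mul, if_pos (dvd_zero l), Nat.zero_div]
    ring

theorem isRatForm_aeval (hk : 1 ≤ k) (hl : l.Prime) (P : ℚ[X]) {S : PowerSeries ℚ}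
    (h : IsRatForm k S) : IsRatForm k (aeval (opT k l) P S) :=
  aeval_mem (opT k l) (ratSpace k) (fun _ hx => isRatForm_tSer hl hx hk) P h

/-- The Eisenstein series is an eigenform. -/
theorem opT_eisSer (hl : l.Prime) :
    opT k l (eisSer k) = (1 + (l : ℚ) ^ (k - 1)) • eisSer k := by
  refine PowerSeries.ext fun n => ?_
  rw [opT, coeff_tSer, PowerSeries.coeff_smul, smul_eq_mul]
  rcases eq_or_ne n 0 with rfl | hn
  · rw [zero_mul, if_pos (dvd_zero l), Nat.zero_div]
    ring
  · simp only [eisSer, PowerSeries.coeff_mk, if_neg (mul_ne_zero hn hl.ne_zero), if_neg hn]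
    have h := congrArg (fun z : ℤ => (z : ℚ)) (sigma_hecke hl (k - 1) hn)
    push_cast at h
    rw [← h]
    split_ifs with hd h0
    · exact absurd h0 (Nat.div_pos (Nat.le_of_dvd (Nat.pos_of_ne_zero hn) hd) hl.pos).ne'
    · rfl
    · rfl

/-- The cusp form of a rational series without constant. -/
theorem exists_cuspForm {S : PowerSeries ℚ} (h : IsRatForm k S)
    (h0 : PowerSeries.coeff 0 S = 0) :
    ∃ f : CuspForm (Gamma0 1) (k : ℤ), ∀ n, qL (k : ℤ) f n = ((PowerSeries.coeff n S : ℚ) : ℂ) := by
  obtain ⟨G, hG⟩ := h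
  refine ⟨CuspForm.mcast rfl (ModularForm.toCuspForm G (by rw [hG, PowerSeries.coeff_map, h0,
    map_zero])) gamma0_one_coe, fun n => ?_⟩
  show (qExpansion 1 ⇑G).coeff n = _
  rw [hG, PowerSeries.coeff_map, eq_ratCast]

/-- Polynomials in `T_l` on cusp forms and on their series. -/
theorem qL_aeval (hk : 1 ≤ k) (hl : l.Prime) (P : ℚ[X]) {S : PowerSeries ℚ}
    {f : CuspForm (Gamma0 1) (k : ℤ)}
    (hf : ∀ n, qL (k : ℤ) f n = ((PowerSeries.coeff n S : ℚ) : ℂ)) (n : ℕ) :
    qL (k : ℤ) (aeval (CuspForm.heckeTLin (k : ℤ) hl hl.not_dvd_one)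
        (P.map (algebraMap ℚ ℂ)) f) n =
      ((PowerSeries.coeff n (aeval (opT k l) P S) : ℚ) : ℂ) := by
  induction P using Polynomial.induction_on generalizing S f n with
  | C a =>
    rw [map_C, aeval_C, aeval_C, Module.algebraMap_end_apply, Module.algebraMap_end_apply,
      map_smul, Pi.smul_apply, hf, PowerSeries.coeff_smul]
    push_cast [eq_ratCast]
    simp
  | add P Q hP hQ =>
    rw [Polynomial.map_add, map_add, LinearMap.add_apply, map_add, Pi.add_apply, hP hf, hQ hf,
      map_add (aeval (opT k l)), LinearMap.add_apply, map_add]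
    push_cast
    rfl
  | monomial m a ih =>
    rw [pow_succ, ← mul_assoc, Polynomial.map_mul, map_X, map_mul, aeval_X, Module.End.mul_apply,
      map_mul (aeval (opT k l)), aeval_X, Module.End.mul_apply]
    refine ih (fun n => ?_) n
    rw [qL_heckeT hl, opT, coeff_tSer, hf, show ((k : ℤ) - 1) = ((k - 1 : ℕ) : ℤ) by omega,
      zpow_natCast]
    split_ifs <;> simp [hf]

/-- Real polynomials in `T_l` are symmetric. -/
theorem pairing_aeval (hl : l.Prime) (P : ℚ[X]) (f g : CuspForm (Gamma0 1) (k : ℤ)) :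
    Poincare.pairing (aeval (CuspForm.heckeTLin (k : ℤ) hl hl.not_dvd_one)
        (P.map (algebraMap ℚ ℂ)) f) g =
      Poincare.pairing f (aeval (CuspForm.heckeTLin (k : ℤ) hl hl.not_dvd_one)
        (P.map (algebraMap ℚ ℂ)) g) := by
  have hr : ∀ (c : ℂ) (u v : CuspForm (Gamma0 1) (k : ℤ)),
      Poincare.pairing u (c • v) = c * Poincare.pairing u v := fun c u v => by
    rw [← Poincare.pairing_symm u (c • v), Poincare.pairing_smul_left, map_mul, Complex.conj_conj,
      Poincare.pairing_symm]
  have ha : ∀ u v w : CuspForm (Gamma0 1) (k : ℤ),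
      Poincare.pairing u (v + w) = Poincare.pairing u v + Poincare.pairing u w := fun u v w => by
    rw [← Poincare.pairing_symm u (v + w), Poincare.pairing_add_left, map_add,
      Poincare.pairing_symm, Poincare.pairing_symm]
  induction P using Polynomial.induction_on generalizing f g with
  | C a =>
    rw [map_C, aeval_C, Module.algebraMap_end_apply, Module.algebraMap_end_apply,
      Poincare.pairing_smul_left, hr]
    simp
  | add P Q hP hQ =>
    rw [Polynomial.map_add, map_add, LinearMap.add_apply, LinearMap.add_apply,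
      Poincare.pairing_add_left, ha, hP, hQ]
  | monomial m a ih =>
    rw [pow_succ, ← mul_assoc, Polynomial.map_mul, map_X, map_mul, aeval_X, Module.End.mul_apply,
      ih, VerticalSatoTate.pairing_heckeT hl hl.not_dvd_one]
    congr 1
    simp only [← Module.End.mul_apply]
    congr 1
    have hc := (Commute.all (X : ℂ[X]) ((C a * X ^ m).map (algebraMap ℚ ℂ))).map
      (aeval (CuspForm.heckeTLin (k : ℤ) hl hl.not_dvd_one))
    rw [aeval_X] at hc
    exact hc.eq

theorem even_and_four_le (hk : 3 ≤ k) {S : PowerSeries ℚ} (h : IsRatForm k S)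
    (hS : PowerSeries.coeff 0 S ≠ 0) : Even k ∧ 4 ≤ k := by
  suffices hev : Even k by
    obtain ⟨j, hj⟩ := hev
    exact ⟨⟨j, hj⟩, by omega⟩
  by_contra hodd
  obtain ⟨F, hF⟩ := h
  have : IsEmpty {q : ℕ × ℕ // 4 * (q.1 : ℤ) + 6 * q.2 = (k : ℤ)} :=
    ⟨fun ⟨q, hq⟩ => hodd ⟨2 * q.1 + 3 * q.2, by omega⟩⟩
  have h2 := LevelOneRing.mem_span (k + 1) (k : ℤ) (by omega) F
  rw [Set.range_eq_empty, Submodule.span_empty, Submodule.mem_bot] at h2
  refine hS ?_
  have e := congrArg (PowerSeries.coeff 0) hF
  rw [h2, UpperHalfPlane.qExpansion_zero, map_zero, PowerSeries.coeff_map, eq_ratCast] at e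
  exact_mod_cast e.symm

/-- **A polynomial in `T_l` whose square kills a form kills it.** -/
theorem aeval_eq_zero_of_sq (hk : 3 ≤ k) (hl : l.Prime) (P : ℚ[X]) {S : PowerSeries ℚ}
    (h : IsRatForm k S) (h2 : aeval (opT k l) P (aeval (opT k l) P S) = 0) :
    aeval (opT k l) P S = 0 := by
  have hcusp : ∀ R, IsRatForm k R → PowerSeries.coeff 0 R = 0 →
      aeval (opT k l) P (aeval (opT k l) P R) = 0 → aeval (opT k l) P R = 0 := by
    intro R hR hR0 hR2
    obtain ⟨f, hf⟩ := exists_cuspForm hR hR0
    have h1 := qL_aeval (by omega) hl P hf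
    have hz : aeval (CuspForm.heckeTLin (k : ℤ) hl hl.not_dvd_one) (P.map (algebraMap ℚ ℂ))
        (aeval (CuspForm.heckeTLin (k : ℤ) hl hl.not_dvd_one) (P.map (algebraMap ℚ ℂ)) f) = 0 :=
      qL_injective (funext fun n => by
        rw [qL_aeval (by omega) hl P h1, hR2, map_zero, Rat.cast_zero, map_zero, Pi.zero_apply])
    have h0 : aeval (CuspForm.heckeTLin (k : ℤ) hl hl.not_dvd_one) (P.map (algebraMap ℚ ℂ)) f = 0 :=
      Poincare.pairing_definite _ (by
        rw [pairing_aeval hl P, hz, ← zero_smul ℂ f, ← Poincare.pairing_symm,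
          Poincare.pairing_smul_left, map_zero, zero_mul, map_zero])
    refine PowerSeries.ext fun n => ?_
    have e := h1 n
    rw [h0, map_zero, Pi.zero_apply] at e
    rw [map_zero]
    exact_mod_cast e.symm
  by_cases hS : PowerSeries.coeff 0 S = 0
  · exact hcusp S h hS h2
  obtain ⟨hev, h4⟩ := even_and_four_le hk h hS
  have hE := isRatForm_eisSer hev h4
  have heig := aeval_eigen (opT_eisSer hl (k := k)) P
  have hev0 : P.eval (1 + (l : ℚ) ^ (k - 1)) = 0 := by
    have e := congrArg (PowerSeries.coeff 0) h2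
    rw [coeff_zero_aeval, coeff_zero_aeval, map_zero, ← mul_assoc, mul_eq_zero,
      or_iff_left hS, mul_self_eq_zero] at e
    exact e
  rw [hev0, zero_smul] at heig
  obtain ⟨e0, he0⟩ : ∃ e0, e0 = PowerSeries.coeff 0 (eisSer k) := ⟨_, rfl⟩
  have he0' : e0 ≠ 0 := by
    rw [he0, eisSer, PowerSeries.coeff_mk, if_pos rfl, neg_ne_zero]
    have hB : _root_.bernoulli k ≠ 0 := fun hb => by
      have := FA.SerreDenominators.pow_succ_dvd_den hev Nat.prime_two (one_dvd _) (e := 0)
        (one_dvd _) (by omega)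
      rw [hb, zero_div, Rat.den_zero] at this
      exact absurd (Nat.le_of_dvd one_pos this) (by norm_num)
    exact div_ne_zero hB (by norm_cast; omega)
  obtain ⟨R, hR⟩ : ∃ R, R = S - (PowerSeries.coeff 0 S / e0) • eisSer k := ⟨_, rfl⟩
  have hPR : aeval (opT k l) P R = aeval (opT k l) P S := by
    rw [hR, map_sub, map_smul, heig, smul_zero, sub_zero]
  rw [← hPR]
  refine hcusp R (hR ▸ h.sub (hE.smul _)) ?_ (by rw [hPR, h2])
  rw [hR, map_sub, PowerSeries.coeff_smul, ← he0, smul_eq_mul, div_mul_cancel₀ _ he0', sub_self]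

/-- **The minimal polynomial of `T_l` on rational forms is squarefree.** -/
theorem exists_squarefree (hk : 3 ≤ k) (hl : l.Prime) :
    ∃ P : ℚ[X], Squarefree P ∧ ∀ S, IsRatForm k S → aeval (opT k l) P S = 0 := by
  have : Module.Finite ℚ ↥(ratSpace k) := by
    have : Module.Finite ℚ ↥(Submodule.span ℚ (monoSet k)) := .span_of_finite _ (finite_monoSet k)
    exact Submodule.finiteDimensional_of_le fun _ hx => mem_span_monoSet hx
  have hst : ∀ x ∈ ratSpace k, opT k l x ∈ ratSpace k := fun _ hx => isRatForm_tSer hl hx (by omega)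
  obtain ⟨t, ht⟩ : ∃ t : Module.End ℚ ↥(ratSpace k), t = (opT k l).restrict hst := ⟨_, rfl⟩
  have hres : ∀ (P : ℚ[X]) (x : ↥(ratSpace k)),
      ((aeval t P x : ↥(ratSpace k)) : PowerSeries ℚ) = aeval (opT k l) P (x : PowerSeries ℚ) := by
    intro P
    induction P using Polynomial.induction_on with
    | C a => intro x; simp [Module.algebraMap_end_apply]
    | add P Q hP hQ => intro x; simp [hP x, hQ x]
    | monomial n a ih =>
      intro x
      rw [pow_succ, ← mul_assoc, map_mul, map_mul (aeval (opT k l)), aeval_X, aeval_X,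
        Module.End.mul_apply, Module.End.mul_apply, ih, ht]
      rfl
  have hmin : aeval t (minpoly ℚ t) = 0 := minpoly.aeval ℚ t
  refine ⟨minpoly ℚ t, ?_, fun S hS => ?_⟩
  · intro A hA
    obtain ⟨B, hB⟩ := hA
    have hP0 : minpoly ℚ t ≠ 0 := minpoly.ne_zero (Algebra.IsIntegral.isIntegral t)
    obtain ⟨Q, hQ⟩ : ∃ Q, Q = A * B := ⟨_, rfl⟩
    have hQ0 : aeval t Q = 0 := LinearMap.ext fun x => Subtype.ext (by
      rw [LinearMap.zero_apply, Submodule.coe_zero, hres]
      refine aeval_eq_zero_of_sq hk hl Q x.2 ?_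
      rw [← Module.End.mul_apply, ← map_mul, hQ, show A * B * (A * B) = A * A * B * B by ring,
        ← hB, ← hres, show aeval t (minpoly ℚ t * B) = 0 by
          rw [mul_comm, map_mul, hmin, mul_zero]]
      rfl)
    obtain ⟨D, hD⟩ := minpoly.dvd ℚ t hQ0
    rw [hB, hQ] at hD
    have hne : A * B ≠ 0 := fun e => hP0 (by rw [hB, mul_assoc, e, mul_zero])
    refine IsUnit.of_mul_eq_one D (mul_left_cancel₀ hne ?_)
    rw [mul_one]
    conv_rhs => rw [hD]
    ring
  · refine (hres (minpoly ℚ t) ⟨S, hS⟩).symm.trans ?_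
    erw [hmin]
    rfl

end FA.OrdinaryReduced

end
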