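import Fermat.Agent.OrdinaryReduced.Fibre
import Fermat.Agent.Root.SummaryLambdaHecke

/-!
# The algebra over `Λ` is reduced

At every integer `m ≥ 3` of the class it acts on the ordinary part through the semisimple algebra of
that weight, and these integers are dense.
-/

set_option autoImplicit false
set_option linter.unusedSectionVars false

noncomputable section

open PowerSeries Filter Topology

namespace FA.OrdinaryReduced

open FA.PadicForms FA.OrdinaryProj FA.LambdaForms FA.LambdaHecke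

variable {p : ℕ} [Fact p.Prime] {hp2 : p ≠ 2} {c : ZMod (p - 1)} {m : ℕ}

local notation "Λ" => PowerSeries ℤ_[p]

theorem spec_mem (h5 : 5 ≤ p) (hmc : (m : ZMod (p - 1)) = c) (F : ↥(lamOrd hp2 c)) :
    toQps p (spec hp2 (m : ℤ_[p]) (F : PowerSeries Λ)) ∈ ordPart (natWeight p m) := by
  subst hmc
  exact ((mem_lamOrd h5).1 F.2).mem_ordPart h5 (m : ℤ_[p])

/-- The value of a family at the integer `m`. -/
def spOrd (h5 : 5 ≤ p) (hmc : (m : ZMod (p - 1)) = c) (F : ↥(lamOrd hp2 c)) :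
    ↥(ordPart (natWeight p m)) :=
  ⟨_, spec_mem h5 hmc F⟩

theorem coe_spOrd {h5 : 5 ≤ p} {hmc : (m : ZMod (p - 1)) = c} (F : ↥(lamOrd hp2 c)) :
    (spOrd h5 hmc F : PowerSeries ℚ_[p]) =
      toQps p (spec hp2 (m : ℤ_[p]) (F : PowerSeries Λ)) := rfl

theorem coeff_spOrd {h5 : 5 ≤ p} {hmc : (m : ZMod (p - 1)) = c} (F : ↥(lamOrd hp2 c)) (n : ℕ) :
    coeff n (spOrd h5 hmc F : PowerSeries ℚ_[p]) =
      ((evalLam hp2 (m : ℤ_[p]) (coeff n (F : PowerSeries Λ)) : ℤ_[p]) : ℚ_[p]) := by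
  rw [coe_spOrd, coeff_toQps, coeff_spec]

/-- The values span the ordinary part. -/
theorem exists_spOrd (h5 : 5 ≤ p) (hmc : (m : ZMod (p - 1)) = c)
    (y : ↥(ordPart (natWeight p m))) :
    ∃ (d : ℚ_[p]) (G : ↥(lamOrd hp2 c)), y = d • spOrd h5 hmc G := by
  obtain ⟨h1, h2⟩ := (mem_ordPart h5).1 y.2
  obtain ⟨d, g, hd, hg, e⟩ := exists_int_scale h1
  rw [e, ordProj_C_mul h5 hg] at h2
  have hge := mul_left_cancel₀ ((map_ne_zero_iff _ PowerSeries.C_injective).2 hd) h2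
  subst hmc
  obtain ⟨G, hG, hGg⟩ :=
    (FA.LambdaForms.Summary.lambda_specialisation (hp2 := hp2) h5 (m : ℤ_[p])).1 g hg hge
  refine ⟨d, ⟨G, hG⟩, Subtype.ext ?_⟩
  rw [Submodule.coe_smul, coe_spOrd, PowerSeries.smul_eq_C_mul, e,
    show spec hp2 (m : ℤ_[p]) G = g from hGg]

/-- The relation between the action on families and on the forms of weight `m`. -/
def IsFibre (h5 : 5 ≤ p) (hmc : (m : ZMod (p - 1)) = c) (h : Module.End Λ ↥(lamOrd hp2 c))
    (f : Module.End ℚ_[p] ↥(ordPart (natWeight p m))) : Prop :=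
  ∀ F, f (spOrd h5 hmc F) = spOrd h5 hmc (h F)

theorem IsFibre.unique {h5 : 5 ≤ p} {hmc : (m : ZMod (p - 1)) = c}
    {h : Module.End Λ ↥(lamOrd hp2 c)} {f f' : Module.End ℚ_[p] ↥(ordPart (natWeight p m))}
    (hf : IsFibre h5 hmc h f) (hf' : IsFibre h5 hmc h f') : f = f' := by
  refine LinearMap.ext fun y => ?_
  obtain ⟨d, G, rfl⟩ := exists_spOrd (hp2 := hp2) h5 hmc y
  rw [map_smul, map_smul, hf, hf']

theorem IsFibre.mul {h5 : 5 ≤ p} {hmc : (m : ZMod (p - 1)) = c}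
    {g h : Module.End Λ ↥(lamOrd hp2 c)} {a b : Module.End ℚ_[p] ↥(ordPart (natWeight p m))}
    (ha : IsFibre h5 hmc g a) (hb : IsFibre h5 hmc h b) : IsFibre h5 hmc (g * h) (a * b) :=
  fun F => by rw [Module.End.mul_apply, hb, ha]; rfl

theorem IsFibre.add {h5 : 5 ≤ p} {hmc : (m : ZMod (p - 1)) = c}
    {g h : Module.End Λ ↥(lamOrd hp2 c)} {a b : Module.End ℚ_[p] ↥(ordPart (natWeight p m))}
    (ha : IsFibre h5 hmc g a) (hb : IsFibre h5 hmc h b) : IsFibre h5 hmc (g + h) (a + b) :=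
  fun F => Subtype.ext (by
    rw [LinearMap.add_apply, ha, hb, Submodule.coe_add, coe_spOrd, coe_spOrd, coe_spOrd,
      LinearMap.add_apply, Submodule.coe_add, map_add, map_add])

theorem IsFibre.of_algebraMap (h5 : 5 ≤ p) (hmc : (m : ZMod (p - 1)) = c) (θ : Λ) :
    IsFibre h5 hmc (algebraMap Λ (Module.End Λ ↥(lamOrd hp2 c)) θ)
      (algebraMap ℚ_[p] _ ((evalLam hp2 (m : ℤ_[p]) θ : ℤ_[p]) : ℚ_[p])) := fun F =>
  Subtype.ext (PowerSeries.ext fun n => by
    rw [Module.algebraMap_end_apply, Module.algebraMap_end_apply, Submodule.coe_smul,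
      PowerSeries.coeff_smul, coeff_spOrd, coeff_spOrd, Submodule.coe_smul,
      PowerSeries.coeff_smul, smul_eq_mul, smul_eq_mul, map_mul, PadicInt.coe_mul])

/-- A generator has a generator as its fibre. -/
theorem exists_fibre_gen (h5 : 5 ≤ p) (hm : 3 ≤ m) (hmc : (m : ZMod (p - 1)) = c)
    {h : Module.End Λ ↥(lamOrd hp2 c)} (hh : IsHeckeGen h) :
    ∃ a, IsFibreGen p m a ∧ IsFibre h5 hmc h a := by
  rcases hh with hh | ⟨l, hl, hlp, hh⟩
  · obtain ⟨u, -, hu⟩ := exists_uOrd (p := p) h5 hm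
    refine ⟨u, Or.inl hu, fun F => Subtype.ext (PowerSeries.ext fun n => ?_)⟩
    rw [hu, coeff_uSer, coeff_spOrd, coeff_spOrd, hh, coeff_uSer]
  · obtain ⟨t, -, ht⟩ := exists_tOrd (p := p) h5 hm hl hlp
    refine ⟨t, Or.inr ⟨l, hl, hlp, ht⟩, fun F => Subtype.ext (PowerSeries.ext fun n => ?_)⟩
    rw [ht, coeff_tSer, coeff_spOrd, coeff_spOrd, coeff_spOrd, hh, coeff_tSer, map_add,
      apply_ite (evalLam hp2 (m : ℤ_[p])), map_zero, map_mul, evalLam_thetaLam h5
        (fun e => hlp ((Nat.prime_dvd_prime_iff_eq Fact.out hl).1 e).symm) (by omega) hmc,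
      PadicInt.coe_add]
    split_ifs <;> simp

/-- **Every element of the algebra has a fibre in the algebra of weight `m`.** -/
theorem exists_fibre (h5 : 5 ≤ p) (hm : 3 ≤ m) (hmc : (m : ZMod (p - 1)) = c)
    {h : Module.End Λ ↥(lamOrd hp2 c)} (hh : h ∈ heckeAlg hp2 c) :
    ∃ a ∈ fibreAlg p m, IsFibre h5 hmc h a := by
  induction hh using Algebra.adjoin_induction with
  | mem x hx =>
    obtain ⟨a, ha, hax⟩ := exists_fibre_gen h5 hm hmc hx
    exact ⟨a, Algebra.subset_adjoin ha, hax⟩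
  | algebraMap r => exact ⟨_, Subalgebra.algebraMap_mem _ _, IsFibre.of_algebraMap h5 hmc r⟩
  | add x y _ _ ihx ihy =>
    obtain ⟨a, ha, ha'⟩ := ihx
    obtain ⟨b, hb, hb'⟩ := ihy
    exact ⟨a + b, add_mem ha hb, ha'.add hb'⟩
  | mul x y _ _ ihx ihy =>
    obtain ⟨a, ha, ha'⟩ := ihx
    obtain ⟨b, hb, hb'⟩ := ihy
    exact ⟨a * b, mul_mem ha hb, ha'.mul hb'⟩

/-- A series vanishing at the integers `≥ 3` of a class is zero. -/
theorem eq_zero_of_class_values (h5 : 5 ≤ p) {θ : Λ}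
    (h : ∀ m : ℕ, 3 ≤ m → (m : ZMod (p - 1)) = c → evalLam hp2 (m : ℤ_[p]) θ = 0) : θ = 0 := by
  have : NeZero (p - 1) := ⟨by omega⟩
  obtain ⟨m₀, hm₀⟩ : ∃ m₀ : ℕ, m₀ = c.val + (p - 1) := ⟨_, rfl⟩
  have hu : IsUnit (((p - 1 : ℕ)) : ℤ_[p]) := PadicInt.isUnit_iff.2 (le_antisymm
    (PadicInt.norm_le_one _) (not_lt.1 fun hlt => by
      rw [← Int.cast_natCast, PadicInt.norm_int_lt_one_iff_dvd, Int.natCast_dvd_natCast] at hlt
      have := Nat.le_of_dvd (by omega) hlt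
      omega))
  obtain ⟨u, hu⟩ := hu
  obtain ⟨φ, hφ⟩ : ∃ φ : ℤ_[p] → ℤ_[p], φ = fun x => (m₀ : ℤ_[p]) + ((p - 1 : ℕ) : ℤ_[p]) * x :=
    ⟨_, rfl⟩
  have hsurj : Function.Surjective φ := fun y =>
    ⟨↑u⁻¹ * (y - (m₀ : ℤ_[p])), by
      rw [hφ, ← hu]
      show _ + _ * _ = y
      rw [← mul_assoc, Units.mul_inv, one_mul, add_sub_cancel]⟩
  have hcont : Continuous φ := hφ ▸ by fun_prop
  have hd : DenseRange (φ ∘ (Nat.cast : ℕ → ℤ_[p])) :=
    hsurj.denseRange.comp PadicInt.denseRange_natCast hcont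
  refine eq_zero_of_evalLam (hp2 := hp2) fun s => ?_
  have heq : (fun x => evalLam hp2 x θ) = fun _ => 0 := by
    refine hd.equalizer (continuous_evalLam θ) continuous_const (funext fun j => ?_)
    simp only [Function.comp_apply, hφ]
    rw [← Nat.cast_mul, ← Nat.cast_add]
    exact h _ (by omega) (by
      rw [Nat.cast_add, Nat.cast_mul, ZMod.natCast_self, zero_mul, add_zero, hm₀, Nat.cast_add,
        ZMod.natCast_self, add_zero, ZMod.natCast_zmod_val])
  exact congrFun heq s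

/-- **A nilpotent element of the algebra over `Λ` is zero.** -/
theorem eq_zero_of_isNilpotent (h5 : 5 ≤ p) {h : Module.End Λ ↥(lamOrd hp2 c)}
    (hh : h ∈ heckeAlg hp2 c) (hn : IsNilpotent h) : h = 0 := by
  refine LinearMap.ext fun F => Subtype.ext ?_
  rw [LinearMap.zero_apply, Submodule.coe_zero]
  refine PowerSeries.ext fun n => ?_
  rw [map_zero]
  refine eq_zero_of_class_values (hp2 := hp2) (c := c) h5 fun m hm hmc => ?_
  obtain ⟨a, ha, hah⟩ := exists_fibre h5 hm hmc hh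
  have := finite_ordPart (k := m) h5 hm
  obtain ⟨j, hj⟩ := hn
  have hpow : ∀ i : ℕ, ∀ G, (a ^ i) (spOrd h5 hmc G) = spOrd h5 hmc ((h ^ i) G) := fun i => by
    induction i with
    | zero => exact fun _ => rfl
    | succ i ih =>
      intro G
      rw [pow_succ', pow_succ', Module.End.mul_apply, Module.End.mul_apply, ih, hah]
  have hzero : spOrd h5 hmc (0 : ↥(lamOrd hp2 c)) = 0 := Subtype.ext (PowerSeries.ext fun i => by
    rw [coeff_spOrd, Submodule.coe_zero, Submodule.coe_zero, map_zero, map_zero, map_zero,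
      PadicInt.coe_zero])
  have ha0 : a ^ j = 0 := LinearMap.ext fun y => by
    obtain ⟨d, G, rfl⟩ := exists_spOrd (hp2 := hp2) h5 hmc y
    rw [map_smul, hpow, hj, LinearMap.zero_apply, hzero, smul_zero, LinearMap.zero_apply]
  have h0 := Module.End.eq_zero_of_isNilpotent_isSemisimple ⟨j, ha0⟩
    (fibreAlg_semisimple h5 hm ha)
  have e := congrArg (fun x : ↥(ordPart (natWeight p m)) => coeff n (x : PowerSeries ℚ_[p])) (hah F)
  simp only [h0, LinearMap.zero_apply, Submodule.coe_zero, map_zero, coeff_spOrd] at e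
  exact PadicInt.coe_eq_zero.1 e.symm

end FA.OrdinaryReduced

end
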